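import Fermat.Agent.S16.H68.Pairing

/-!
# S16 / WP ALG (helper68): the index of the Eisenstein ideal from (UB') and (LB')

`card_quotient` : if
* (UB') every cusp form `f` with `a_k(f) ≡ σ'(k) mod m` (`k ≥ 1`) has `m ∣ n`, and
* (LB') some `h ∈ L` has `a_k(h) ≡ c σ'(k) mod n` (`k ≥ 1`) with `c` prime to `n`,
then `𝕋 / I` has exactly `n` elements, `I` the image of the Eisenstein ideal.
-/

set_option autoImplicit false
set_option linter.unusedSectionVars false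

noncomputable section

namespace Fermat.Agent.S16.H68

open CuspForm CongruenceSubgroup ModularFormClass ModularCurve Module
open Fermat.Agent.S16 Fermat.Agent.S49

variable (p : ℕ) [Fact p.Prime]

/-- The image of the Eisenstein ideal in `𝕋`. -/
def eisI : Ideal (TT p) := Ideal.map (phiL p) (eisensteinIdeal p)

theorem phiL_C (a : ℤ) : phiL p (MvPolynomial.C a) = (a : TT p) := by
  rw [show (MvPolynomial.C a : HeckeAlg) = ((a : ℤ) : HeckeAlg) from eq_intCast MvPolynomial.C a,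
    map_intCast]

theorem mk_phiL (P : HeckeAlg) :
    Ideal.Quotient.mk (eisI p) (phiL p P) = ((evEis p P : ℤ) : TT p ⧸ eisI p) := by
  have h : phiL p (P - MvPolynomial.C (evEis p P)) ∈ eisI p :=
    Ideal.mem_map_of_mem (phiL p) (sub_C_evEis_mem p P)
  rw [map_sub, phiL_C] at h
  rw [(Ideal.Quotient.eq (I := eisI p)).mpr h, map_intCast]

theorem intCast_surjective :
    Function.Surjective (Int.cast : ℤ → TT p ⧸ eisI p) := by
  intro x
  obtain ⟨t, rfl⟩ := Ideal.Quotient.mk_surjective x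
  obtain ⟨P, rfl⟩ := phiL_surjective p t
  exact ⟨evEis p P, (mk_phiL p P).symm⟩

/-! ## The upper bound side -/

/-- A ring homomorphism `𝕋 → ℤ/M` with the Eisenstein eigenvalues produces a cusp form
congruent to the Eisenstein series modulo `M`. -/
theorem exists_form_of_ringHom (M : ℕ) (χ : TT p →+* ZMod M)
    (hχ : ∀ P : HeckeAlg, χ (phiL p P) = ((evEis p P : ℤ) : ZMod M)) :
    ∃ f : CuspForm (Gamma0 p) 2, ∀ k : ℕ, 1 ≤ k →
      ∃ t : ℤ, qCoeff ⇑f k = (sigmaP p k : ℂ) + (M : ℂ) * (t : ℂ) := by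
  let g : TT p →ₗ[ℤ] ZMod M := χ.toIntAlgHom.toLinearMap
  let f : ℤ →ₗ[ℤ] ZMod M := (Int.castRingHom (ZMod M)).toIntAlgHom.toLinearMap
  have hf : Function.Surjective f := ZMod.intCast_surjective
  obtain ⟨lam, hlam⟩ := Module.projective_lifting_property f g hf
  have hlam' : ∀ t : TT p, ((lam t : ℤ) : ZMod M) = χ t := fun t =>
    congrArg (fun φ : TT p →ₗ[ℤ] ZMod M => φ t) hlam
  obtain ⟨f₀, hf₀⟩ := exists_lat_of_functional p lam
  refine ⟨f₀, fun k hk => ?_⟩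
  have h1 : cz p k f₀ = lam (phiL p (polyK p k)) := by
    rw [← hf₀, cz_one_act_polyK p hk]
  have h2 : (((cz p k f₀ - (sigmaP p k : ℤ) : ℤ)) : ZMod M) = 0 := by
    rw [Int.cast_sub, h1, hlam', hχ, evEis_polyK p hk, sub_self]
  obtain ⟨t, ht⟩ := (ZMod.intCast_zmod_eq_zero_iff_dvd _ M).mp h2
  refine ⟨t, ?_⟩
  rw [← cz_spec]
  have h3 : cz p k f₀ = (sigmaP p k : ℤ) + (M : ℤ) * t := by linarith
  rw [h3]
  push_cast
  ring

/-! ## The lower bound side -/

/-- The elements of `𝕋` which map `h` into `n L`. -/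
def annIdeal (n : ℕ) (h : Lat p) : Ideal (TT p) where
  carrier := {t | ∃ g : Lat p, act p t h = (n : ℤ) • g}
  add_mem' := by
    rintro s t ⟨g₁, h₁⟩ ⟨g₂, h₂⟩
    exact ⟨g₁ + g₂, by rw [add_act, h₁, h₂, smul_add]⟩
  zero_mem' := ⟨0, by rw [zero_act, smul_zero]⟩
  smul_mem' := by
    rintro s t ⟨g, hg⟩
    exact ⟨act p s g, by rw [smul_eq_mul, mul_act, hg, act_zsmul]⟩

theorem mem_annIdeal {n : ℕ} {h : Lat p} {t : TT p} :
    t ∈ annIdeal p n h ↔ ∃ g : Lat p, act p t h = (n : ℤ) • g := Iff.rfl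

/-- The Eisenstein congruence makes `h` an eigenvector modulo `n L`. -/
theorem phiL_X_sub_mem (n c : ℕ) (hn : 1 ≤ n) (h : Lat p)
    (hh : ∀ k : ℕ, 1 ≤ k → ∃ t : ℤ, cz p k h = (c : ℤ) * (sigmaP p k : ℤ) + (n : ℤ) * t)
    (i : Nat.Primes) :
    phiL p (MvPolynomial.X i) - ((eisensteinSystem p i : ℤ) : TT p) ∈ annIdeal p n h := by
  have hp : p.Prime := Fact.out
  rw [mem_annIdeal, sub_act, intCast_act]
  apply exists_eq_smul_of_dvd p _ (n : ℤ) (by exact_mod_cast (by omega : n ≠ 0))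
  intro k hk
  rw [map_sub, map_smul, smul_eq_mul]
  obtain ⟨t₁, ht₁⟩ := hh k hk
  by_cases hip : (i : ℕ) = p
  · -- `U_p`
    have hX : cz p k (act p (phiL p (MvPolynomial.X i)) h) = cz p (k * p) h := by
      apply Int.cast_injective (α := ℂ)
      rw [cz_act_phiL, cz_spec]
      have : i = pr p Fact.out := Subtype.ext hip
      rw [this]
      exact qCoeff_opOf_X_self p _ k
    have hsys : eisensteinSystem p i = 1 :=
      eisensteinSystem_of_dvd (by rw [hip])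
    obtain ⟨t₂, ht₂⟩ := hh (k * p) (Nat.mul_pos hk hp.pos)
    rw [hX, hsys, ht₁, ht₂, sigmaP_mul_self p hp k (by omega)]
    exact ⟨t₂ - t₁, by ring⟩
  · -- `T_ℓ`
    have hnd : ¬ (i : ℕ) ∣ p := prime_not_dvd p i.2 hip
    have hsys : eisensteinSystem p i = 1 + ((i : ℕ) : ℤ) := eisensteinSystem_of_not_dvd hnd
    have hq : qCoeff ⇑(opOf p (MvPolynomial.X i) (h : CuspForm (Gamma0 p) 2)) k =
        qCoeff ⇑(h : CuspForm (Gamma0 p) 2) (k * (i : ℕ)) +
          if (i : ℕ) ∣ k then ((i : ℕ) : ℂ) * qCoeff ⇑(h : CuspForm (Gamma0 p) 2) (k / (i : ℕ))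
          else 0 :=
      qCoeff_opOf_X_of_ne p i.2 hip _ k
    have hsig := sigmaP_mul_prime p hp (i : ℕ) i.2 hip k (by omega)
    obtain ⟨t₂, ht₂⟩ := hh (k * (i : ℕ)) (Nat.mul_pos hk i.2.pos)
    by_cases hdiv : (i : ℕ) ∣ k
    · have hkpos : 1 ≤ k / (i : ℕ) :=
        Nat.div_pos (Nat.le_of_dvd hk hdiv) i.2.pos
      obtain ⟨t₃, ht₃⟩ := hh (k / (i : ℕ)) hkpos
      have hX : cz p k (act p (phiL p (MvPolynomial.X i)) h) =
          cz p (k * (i : ℕ)) h + ((i : ℕ) : ℤ) * cz p (k / (i : ℕ)) h := by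
        apply Int.cast_injective (α := ℂ)
        rw [cz_act_phiL, hq, if_pos hdiv]
        push_cast
        rw [cz_spec, cz_spec]
      rw [if_pos hdiv] at hsig
      have hsigZ : (sigmaP p (k * (i : ℕ)) : ℤ) + ((i : ℕ) : ℤ) * (sigmaP p (k / (i : ℕ)) : ℤ) =
          (1 + ((i : ℕ) : ℤ)) * (sigmaP p k : ℤ) := by exact_mod_cast hsig
      rw [hX, hsys, ht₁, ht₂, ht₃]
      refine ⟨t₂ + ((i : ℕ) : ℤ) * t₃ - (1 + ((i : ℕ) : ℤ)) * t₁, ?_⟩
      linear_combination (c : ℤ) * hsigZ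
    · have hX : cz p k (act p (phiL p (MvPolynomial.X i)) h) = cz p (k * (i : ℕ)) h := by
        apply Int.cast_injective (α := ℂ)
        rw [cz_act_phiL, hq, if_neg hdiv, add_zero, cz_spec]
      rw [if_neg hdiv, add_zero] at hsig
      have hsigZ : (sigmaP p (k * (i : ℕ)) : ℤ) = (1 + ((i : ℕ) : ℤ)) * (sigmaP p k : ℤ) := by
        exact_mod_cast hsig
      rw [hX, hsys, ht₁, ht₂]
      refine ⟨t₂ - (1 + ((i : ℕ) : ℤ)) * t₁, ?_⟩
      linear_combination (c : ℤ) * hsigZ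

/-- `phiL P ≡ ev(P)` modulo the annihilator ideal. -/
theorem phiL_sub_mem (n c : ℕ) (hn : 1 ≤ n) (h : Lat p)
    (hh : ∀ k : ℕ, 1 ≤ k → ∃ t : ℤ, cz p k h = (c : ℤ) * (sigmaP p k : ℤ) + (n : ℤ) * t)
    (P : HeckeAlg) :
    phiL p P - ((evEis p P : ℤ) : TT p) ∈ annIdeal p n h := by
  induction P using MvPolynomial.induction_on with
  | C a => rw [phiL_C, evEis_C, sub_self]; exact Ideal.zero_mem _
  | add P Q hP hQ =>
    have : phiL p (P + Q) - ((evEis p (P + Q) : ℤ) : TT p) =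
        (phiL p P - ((evEis p P : ℤ) : TT p)) + (phiL p Q - ((evEis p Q : ℤ) : TT p)) := by
      rw [map_add, map_add]; push_cast; ring
    rw [this]
    exact Ideal.add_mem _ hP hQ
  | mul_X P i hP =>
    have hX := phiL_X_sub_mem p n c hn h hh i
    have : phiL p (P * MvPolynomial.X i) - ((evEis p (P * MvPolynomial.X i) : ℤ) : TT p) =
        phiL p P * (phiL p (MvPolynomial.X i) - ((eisensteinSystem p i : ℤ) : TT p)) +
          ((eisensteinSystem p i : ℤ) : TT p) * (phiL p P - ((evEis p P : ℤ) : TT p)) := by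
      rw [map_mul, map_mul, evEis_X]; push_cast; ring
    rw [this]
    exact Ideal.add_mem _ (Ideal.mul_mem_left _ _ hX) (Ideal.mul_mem_left _ _ hP)

theorem eisI_le_annIdeal (n c : ℕ) (hn : 1 ≤ n) (h : Lat p)
    (hh : ∀ k : ℕ, 1 ≤ k → ∃ t : ℤ, cz p k h = (c : ℤ) * (sigmaP p k : ℤ) + (n : ℤ) * t) :
    eisI p ≤ annIdeal p n h := by
  rw [eisI, Ideal.map_le_iff_le_comap]
  intro x hx
  rw [eisensteinIdeal_eq_ker, RingHom.mem_ker] at hx
  have := phiL_sub_mem p n c hn h hh x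
  rw [hx, Int.cast_zero, sub_zero] at this
  exact this

/-- The lower bound: `n` divides every integer lying in the image of the Eisenstein ideal. -/
theorem dvd_of_natCast_mem (n c : ℕ) (hn : 1 ≤ n) (hcop : Nat.Coprime c n) (h : Lat p)
    (hh : ∀ k : ℕ, 1 ≤ k → ∃ t : ℤ, cz p k h = (c : ℤ) * (sigmaP p k : ℤ) + (n : ℤ) * t)
    (m : ℕ) (hm : (m : TT p) ∈ eisI p) : n ∣ m := by
  have hp : p.Prime := Fact.out
  obtain ⟨g, hg⟩ := eisI_le_annIdeal p n c hn h hh hm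
  have h1 : act p (m : TT p) h = (m : ℤ) • h := by
    have := intCast_act p (m : ℤ) h
    rwa [Int.cast_natCast] at this
  rw [h1] at hg
  have h2 := congrArg (cz p 1) hg
  rw [map_smul, map_smul, smul_eq_mul, smul_eq_mul] at h2
  obtain ⟨t, ht⟩ := hh 1 le_rfl
  rw [ht, sigmaP_one p hp] at h2
  have h3 : (n : ℤ) ∣ (m : ℤ) * (c : ℤ) := by
    refine ⟨cz p 1 g - (m : ℤ) * t, ?_⟩
    push_cast at h2
    linear_combination h2
  have h4 : IsCoprime (n : ℤ) (c : ℤ) := by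
    rw [Int.isCoprime_iff_gcd_eq_one, Int.gcd_natCast_natCast]
    exact hcop.symm
  exact_mod_cast h4.dvd_of_dvd_mul_right h3

/-! ## The index -/

/-- **The index of the Eisenstein ideal**, from (UB') and (LB'). -/
theorem card_quotient (n c : ℕ) (hn : 1 ≤ n) (hcop : Nat.Coprime c n)
    (hUB : ∀ m : ℕ, 1 ≤ m → ∀ f : CuspForm (Gamma0 p) 2,
      (∀ k : ℕ, 1 ≤ k → ∃ t : ℤ, qCoeff ⇑f k = (sigmaP p k : ℂ) + (m : ℂ) * (t : ℂ)) → m ∣ n)
    (hLB : ∃ h : CuspForm (Gamma0 p) 2, h ∈ CuspForm.intLattice p 2 ∧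
      ∀ k : ℕ, 1 ≤ k →
        ∃ t : ℤ, qCoeff ⇑h k = (c : ℂ) * (sigmaP p k : ℂ) + (n : ℂ) * (t : ℂ)) :
    Nat.card (TT p ⧸ eisI p) = n := by
  -- the quotient is `ℤ / m`
  set m : ℕ := ringChar (TT p ⧸ eisI p) with hm
  have : CharP (TT p ⧸ eisI p) m := ringChar.charP _
  have hinj : Function.Injective (ZMod.castHom (dvd_refl m) (TT p ⧸ eisI p)) :=
    ZMod.castHom_injective _
  have hsurj : Function.Surjective (ZMod.castHom (dvd_refl m) (TT p ⧸ eisI p)) := by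
    intro x
    obtain ⟨a, rfl⟩ := intCast_surjective p x
    exact ⟨(a : ZMod m), map_intCast _ a⟩
  let e : ZMod m ≃+* (TT p ⧸ eisI p) := RingEquiv.ofBijective _ ⟨hinj, hsurj⟩
  have hcard : Nat.card (TT p ⧸ eisI p) = m := by
    rw [← Nat.card_congr e.toEquiv, Nat.card_zmod]
  -- upper bound
  have hD : ∀ M : ℕ, 1 ≤ M → M ∣ m → M ∣ n := by
    intro M hM hMm
    let χ : TT p →+* ZMod M :=
      ((ZMod.castHom hMm (ZMod M)).comp e.symm.toRingHom).comp (Ideal.Quotient.mk (eisI p))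
    have hχ : ∀ P : HeckeAlg, χ (phiL p P) = ((evEis p P : ℤ) : ZMod M) := by
      intro P
      show (ZMod.castHom hMm (ZMod M)) (e.symm (Ideal.Quotient.mk (eisI p) (phiL p P))) = _
      rw [mk_phiL, map_intCast, map_intCast]
    obtain ⟨f, hf⟩ := exists_form_of_ringHom p M χ hχ
    exact hUB M hM f hf
  have hm0 : m ≠ 0 := by
    intro h0
    have := hD (n + 1) (by omega) (by rw [h0]; exact dvd_zero _)
    have := Nat.le_of_dvd (by omega) this
    omega
  have hmn : m ∣ n := hD m (Nat.pos_of_ne_zero hm0) dvd_rfl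
  -- lower bound
  obtain ⟨h, hhmem, hh⟩ := hLB
  have hh' : ∀ k : ℕ, 1 ≤ k → ∃ t : ℤ,
      cz p k (⟨h, hhmem⟩ : Lat p) = (c : ℤ) * (sigmaP p k : ℤ) + (n : ℤ) * t := by
    intro k hk
    obtain ⟨t, ht⟩ := hh k hk
    refine ⟨t, ?_⟩
    apply Int.cast_injective (α := ℂ)
    rw [cz_spec]
    push_cast
    exact ht
  have hmem : (m : TT p) ∈ eisI p := by
    rw [← Ideal.Quotient.eq_zero_iff_mem, map_natCast]
    exact CharP.cast_eq_zero _ m
  have hnm : n ∣ m := dvd_of_natCast_mem p n c hn hcop ⟨h, hhmem⟩ hh' m hmem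
  rw [hcard]
  exact Nat.dvd_antisymm hmn hnm

end Fermat.Agent.S16.H68
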