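import Fermat.Agent.S16.Interface
import Fermat.Agent.S20.Bridge
import Fermat.Agent.S16.H68.Core

/-!
# S16 / WP ALG (helper68): `result_of_forms` in the exact skeleton shape

From the four modular-forms inputs `HasEis`, `CuspCrit`, `UpperBound`, `LowerBound` of
`Fermat.Agent.S16.Interface` to the frozen statement S16 (for every prime `p`; the skeleton only
asks for `5 ≤ p`).

The bridge `(UB) + (E) ⇒ (UB')`, `(LB) + (E) + (C) ⇒ (LB')` follows helper7's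
`origin/helper7:Fermat/Agent/S16/H7/Bridge.lean`.
-/

set_option autoImplicit false
set_option linter.unusedSectionVars false

noncomputable section

namespace Fermat.Agent.S16.H68

open UpperHalfPlane ModularForm CongruenceSubgroup MatrixGroups ModularFormClass ModularCurve
open Fermat.Agent.S16 Fermat.Agent.S49
open Fermat.Agent.S20 (MF SF)
open scoped Manifold

/-! ## `q`-coefficients on the function level spaces -/

theorem exists_modularForm_of_mem_MF {N : ℕ} [NeZero N] {k : ℤ} {f : ℍ → ℂ}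
    (hf : f ∈ MF (Gamma0 N) k) : ∃ g : ModularForm (Gamma0 N) k, ⇑g = f :=
  (Fermat.Agent.S20.isMF_iff N k f).mp hf

theorem exists_cuspForm_of_mem_SF {N : ℕ} [NeZero N] {k : ℤ} {f : ℍ → ℂ}
    (hf : f ∈ SF (Gamma0 N) k) : ∃ g : CuspForm (Gamma0 N) k, ⇑g = f :=
  (Fermat.Agent.S20.isCF_iff N k f).mp hf

theorem coe_cuspForm_mem_SF {N : ℕ} [NeZero N] {k : ℤ} (g : CuspForm (Gamma0 N) k) :
    (⇑g : ℍ → ℂ) ∈ SF (Gamma0 N) k :=
  (Fermat.Agent.S20.isCF_iff N k _).mpr ⟨g, rfl⟩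

theorem qCoeff_smul_of_mem_MF {N : ℕ} [NeZero N] {k : ℤ} {f : ℍ → ℂ}
    (hf : f ∈ MF (Gamma0 N) k) (c : ℂ) (n : ℕ) :
    qCoeff (c • f) n = c * qCoeff f n := by
  obtain ⟨F, rfl⟩ := exists_modularForm_of_mem_MF hf
  simp only [qCoeff]
  rw [ModularForm.qExpansion_smul one_pos (one_mem_strictPeriods N) c F]
  simp

theorem qCoeff_sub_of_mem_MF {N : ℕ} [NeZero N] {k : ℤ} {f g : ℍ → ℂ}
    (hf : f ∈ MF (Gamma0 N) k) (hg : g ∈ MF (Gamma0 N) k) (n : ℕ) :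
    qCoeff (f - g) n = qCoeff f n - qCoeff g n := by
  obtain ⟨F, rfl⟩ := exists_modularForm_of_mem_MF hf
  obtain ⟨G, rfl⟩ := exists_modularForm_of_mem_MF hg
  simp only [qCoeff]
  rw [ModularForm.qExpansion_sub one_pos (one_mem_strictPeriods N) F G, map_sub]

/-! ## Arithmetic of `n = (p-1)/gcd(p-1,12)` and `c = 12/gcd(p-1,12)` -/

theorem gcd_pos' (p : ℕ) : 0 < Nat.gcd (p - 1) 12 :=
  Nat.gcd_pos_of_pos_right _ (by norm_num)

theorem gcd_mul_eisensteinNumerator (p : ℕ) :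
    Nat.gcd (p - 1) 12 * eisensteinNumerator p = p - 1 := by
  unfold eisensteinNumerator
  exact Nat.mul_div_cancel' (Nat.gcd_dvd_left _ _)

theorem gcd_mul_twelve_div (p : ℕ) : Nat.gcd (p - 1) 12 * (12 / Nat.gcd (p - 1) 12) = 12 :=
  Nat.mul_div_cancel' (Nat.gcd_dvd_right _ _)

theorem coprime_c_n (p : ℕ) :
    Nat.Coprime (12 / Nat.gcd (p - 1) 12) (eisensteinNumerator p) := by
  unfold eisensteinNumerator
  exact (Nat.coprime_div_gcd_div_gcd (gcd_pos' p)).symm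

theorem eisensteinNumerator_pos (p : ℕ) (hp : 2 ≤ p) : 0 < eisensteinNumerator p := by
  have h := gcd_mul_eisensteinNumerator p
  rcases Nat.eq_zero_or_pos (eisensteinNumerator p) with h0 | h0
  · rw [h0, mul_zero] at h
    omega
  · exact h0

/-! ## (UB') -/

theorem ub_prime (p : ℕ) [Fact p.Prime] (hE : HasEis p) (hUB : UpperBound p)
    (m : ℕ) (hm : 1 ≤ m) (f : CuspForm (Gamma0 p) 2)
    (hf : ∀ k : ℕ, 1 ≤ k → ∃ t : ℤ, qCoeff (⇑f) k = (sigmaP p k : ℂ) + (m : ℂ) * (t : ℂ)) :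
    m ∣ eisensteinNumerator p := by
  obtain ⟨e, he, he0, hek⟩ := hE
  have hfMF : (⇑f : ℍ → ℂ) ∈ MF (Gamma0 p) 2 :=
    Fermat.Agent.S20.SF_le_MF _ _ (coe_cuspForm_mem_SF f)
  have hsub : e - ⇑f ∈ MF (Gamma0 p) 2 := Submodule.sub_mem _ he hfMF
  have hmC : (m : ℂ) ≠ 0 := by
    have : m ≠ 0 := by omega
    exact_mod_cast this
  set G : ℍ → ℂ := ((m : ℂ)⁻¹) • (e - ⇑f) with hG
  have hGmem : G ∈ MF (Gamma0 p) 2 := Submodule.smul_mem _ _ hsub
  have hGk : ∀ k : ℕ, qCoeff G k = (m : ℂ)⁻¹ * (qCoeff e k - qCoeff (⇑f) k) := by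
    intro k
    rw [hG, qCoeff_smul_of_mem_MF hsub, qCoeff_sub_of_mem_MF he hfMF]
  have hint : IntFrom1 G := by
    intro k hk
    obtain ⟨t, ht⟩ := hf k hk
    refine ⟨-t, ?_⟩
    rw [hGk, hek k hk, ht]
    push_cast
    field_simp
    ring
  obtain ⟨M, hM⟩ := hUB G hGmem hint
  rw [hGk, he0, glue_qCoeff_zero_idx] at hM
  have hp1 : 1 ≤ p := (Fact.out : p.Prime).one_lt.le
  have h1 : ((p : ℂ) - 1) = (Nat.gcd (p - 1) 12 : ℂ) * (M : ℂ) * (m : ℂ) := by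
    have h2 : 24 * ((m : ℂ)⁻¹ * (((p : ℂ) - 1) / 24 - 0)) = (m : ℂ)⁻¹ * ((p : ℂ) - 1) := by
      ring
    rw [h2] at hM
    have h3 : ((p : ℂ) - 1) = (m : ℂ) * ((m : ℂ)⁻¹ * ((p : ℂ) - 1)) := by
      field_simp
    rw [h3, hM]
    ring
  have h4 : ((p - 1 : ℕ) : ℤ) = (Nat.gcd (p - 1) 12 : ℤ) * M * (m : ℤ) := by
    have : (((p - 1 : ℕ) : ℤ) : ℂ) = (((Nat.gcd (p - 1) 12 : ℤ) * M * (m : ℤ) : ℤ) : ℂ) := by
      push_cast [Nat.cast_sub hp1]
      exact h1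
    exact_mod_cast this
  have h5 := gcd_mul_eisensteinNumerator p
  have h6 : (Nat.gcd (p - 1) 12 : ℤ) * (eisensteinNumerator p : ℤ) =
      (Nat.gcd (p - 1) 12 : ℤ) * (M * (m : ℤ)) := by
    rw [← mul_assoc, ← h4]
    exact_mod_cast h5
  have hν : (Nat.gcd (p - 1) 12 : ℤ) ≠ 0 := by
    have := gcd_pos' p
    exact_mod_cast this.ne'
  have h7 : (eisensteinNumerator p : ℤ) = M * (m : ℤ) := mul_left_cancel₀ hν h6
  have h8 : (m : ℤ) ∣ (eisensteinNumerator p : ℤ) := ⟨M, by rw [h7]; ring⟩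
  exact_mod_cast h8

/-! ## (LB') -/

theorem lb_prime (p : ℕ) [Fact p.Prime] (hE : HasEis p) (hC : CuspCrit p) (hLB : LowerBound p) :
    ∃ h : CuspForm (Gamma0 p) 2, h ∈ CuspForm.intLattice p 2 ∧
      ∀ k : ℕ, 1 ≤ k → ∃ t : ℤ, qCoeff (⇑h) k =
        ((12 / Nat.gcd (p - 1) 12 : ℕ) : ℂ) * (sigmaP p k : ℂ) +
          (eisensteinNumerator p : ℂ) * (t : ℂ) := by
  obtain ⟨e, he, he0, hek⟩ := hE
  obtain ⟨G₁, hG₁, hG₁0, hG₁k⟩ := hLB
  set c : ℕ := 12 / Nat.gcd (p - 1) 12 with hc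
  set n : ℕ := eisensteinNumerator p with hn
  have hce : (c : ℂ) • e ∈ MF (Gamma0 p) 2 := Submodule.smul_mem _ _ he
  have hnG : (n : ℂ) • G₁ ∈ MF (Gamma0 p) 2 := Submodule.smul_mem _ _ hG₁
  set h₀ : ℍ → ℂ := (c : ℂ) • e - (n : ℂ) • G₁ with hh₀
  have hh₀mem : h₀ ∈ MF (Gamma0 p) 2 := Submodule.sub_mem _ hce hnG
  have hcoeff : ∀ k : ℕ, qCoeff h₀ k = (c : ℂ) * qCoeff e k - (n : ℂ) * qCoeff G₁ k := by
    intro k
    rw [hh₀, qCoeff_sub_of_mem_MF hce hnG, qCoeff_smul_of_mem_MF he, qCoeff_smul_of_mem_MF hG₁]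
  have hp1 : 1 ≤ p := (Fact.out : p.Prime).one_lt.le
  have hνn : (Nat.gcd (p - 1) 12 : ℂ) * (n : ℂ) = (p : ℂ) - 1 := by
    have := gcd_mul_eisensteinNumerator p
    have h2 : ((Nat.gcd (p - 1) 12 * n : ℕ) : ℂ) = ((p - 1 : ℕ) : ℂ) := by rw [hn, this]
    push_cast [Nat.cast_sub hp1] at h2
    exact h2
  have hνc : (Nat.gcd (p - 1) 12 : ℂ) * (c : ℂ) = 12 := by
    have := gcd_mul_twelve_div p
    have h2 : ((Nat.gcd (p - 1) 12 * c : ℕ) : ℂ) = ((12 : ℕ) : ℂ) := by rw [hc, this]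
    push_cast at h2
    exact h2
  have hν : (Nat.gcd (p - 1) 12 : ℂ) ≠ 0 := by
    have := gcd_pos' p
    exact_mod_cast this.ne'
  have h0 : qCoeff h₀ 0 = 0 := by
    rw [hcoeff, he0, hG₁0, ← hνn]
    have : (c : ℂ) = 12 / (Nat.gcd (p - 1) 12 : ℂ) := by
      rw [eq_div_iff hν, mul_comm]
      exact hνc
    rw [this]
    field_simp
    ring
  obtain ⟨H, hH⟩ := exists_cuspForm_of_mem_SF (hC h₀ hh₀mem h0)
  refine ⟨H, ?_, ?_⟩
  · refine Submodule.subset_span ?_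
    intro k
    rcases Nat.eq_zero_or_pos k with rfl | hk
    · exact ⟨0, by rw [hH, h0]; simp⟩
    · obtain ⟨t, ht⟩ := hG₁k k hk
      refine ⟨(c : ℤ) * (sigmaP p k : ℤ) - (n : ℤ) * t, ?_⟩
      rw [hH, hcoeff, hek k hk, ht]
      push_cast
      ring
  · intro k hk
    obtain ⟨t, ht⟩ := hG₁k k hk
    refine ⟨-t, ?_⟩
    rw [hH, hcoeff, hek k hk, ht]
    push_cast
    ring

/-! ## WP ALG -/

/-- **WP ALG**, valid for every prime `p`. -/
theorem result_of_forms' (p : ℕ) [Fact p.Prime]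
    (hE : HasEis p) (hC : CuspCrit p) (hUB : UpperBound p) (hLB : LowerBound p) :
    Nat.card (↥(CuspForm.heckeLatticeAlgebra p ∅) ⧸
        Ideal.map ((CuspForm.latticeRestrictHom p ∅).toRingHom.comp (CuspForm.heckeEvalForms p 2))
          (ModularCurve.eisensteinIdeal p)) =
      ModularCurve.eisensteinNumerator p :=
  card_quotient p (eisensteinNumerator p) (12 / Nat.gcd (p - 1) 12)
    (eisensteinNumerator_pos p (Fact.out : p.Prime).two_le) (coprime_c_n p)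
    (fun m hm f hf => ub_prime p hE hUB m hm f hf) (lb_prime p hE hC hLB)

/-- **WP ALG**, exact skeleton statement `Skel.result_of_forms`. -/
theorem result_of_forms (p : ℕ) [Fact p.Prime] (_hp5 : 5 ≤ p)
    (hE : HasEis p) (hC : CuspCrit p) (hUB : UpperBound p) (hLB : LowerBound p) :
    Nat.card (↥(CuspForm.heckeLatticeAlgebra p ∅) ⧸
        Ideal.map ((CuspForm.latticeRestrictHom p ∅).toRingHom.comp (CuspForm.heckeEvalForms p 2))
          (ModularCurve.eisensteinIdeal p)) =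
      ModularCurve.eisensteinNumerator p :=
  result_of_forms' p hE hC hUB hLB

end Fermat.Agent.S16.H68
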