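import Fermat.Agent.S16.H68.Tk

/-!
# S16 / WP ALG (helper68): the integral lattice, its integer coefficients, the Hecke action

* `cz p k : L →ₗ[ℤ] ℤ` : the `k`-th `q`-coefficient on `L = intLattice p 2`.
* saturation: `n ∣ a_k(f)` for all `k ≥ 1` implies `f ∈ n L`.
* `phiL p : ℤ[X_ℓ] →+* 𝕋` is surjective, `phiL P` acts on `L` as `opOf P`.
-/

set_option autoImplicit false
set_option linter.unusedSectionVars false

noncomputable section

namespace Fermat.Agent.S16.H68

open CuspForm CongruenceSubgroup ModularFormClass ModularCurve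
open Fermat.Agent.S16 Fermat.Agent.S49

variable (p : ℕ) [Fact p.Prime]

/-- The integral lattice `L ⊂ S₂(Γ₀(p))`. -/
abbrev Lat : Type := ↥(CuspForm.intLattice p 2)

/-- The Hecke algebra `𝕋 ⊂ End_ℤ(L)`. -/
abbrev TT : Type := ↥(CuspForm.heckeLatticeAlgebra p ∅)

theorem mem_intLattice_iff' (f : CuspForm (Gamma0 p) 2) :
    f ∈ CuspForm.intLattice p 2 ↔ ∀ n : ℕ, ∃ m : ℤ, qCoeff ⇑f n = (m : ℂ) :=
  P2MW.S_CuspForm_intLattice_fg.W3WsD.mem_intLattice_iff f

theorem exists_int_qCoeff (f : Lat p) (k : ℕ) :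
    ∃ m : ℤ, qCoeff ⇑(f : CuspForm (Gamma0 p) 2) k = (m : ℂ) :=
  (mem_intLattice_iff' p f.1).mp f.2 k

/-- The `k`-th `q`-coefficient of an element of the lattice, as an integer. -/
def czFun (f : Lat p) (k : ℕ) : ℤ := (exists_int_qCoeff p f k).choose

theorem czFun_spec (f : Lat p) (k : ℕ) :
    ((czFun p f k : ℤ) : ℂ) = qCoeff ⇑(f : CuspForm (Gamma0 p) 2) k :=
  (exists_int_qCoeff p f k).choose_spec.symm

/-- The `k`-th `q`-coefficient as a linear form on the lattice. -/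
def cz (k : ℕ) : Lat p →ₗ[ℤ] ℤ where
  toFun f := czFun p f k
  map_add' f g := by
    apply Int.cast_injective (α := ℂ)
    rw [Int.cast_add, czFun_spec, czFun_spec, czFun_spec, Submodule.coe_add, glue_qCoeff_add]
  map_smul' c f := by
    apply Int.cast_injective (α := ℂ)
    rw [RingHom.id_apply, smul_eq_mul, Int.cast_mul, czFun_spec, czFun_spec, Submodule.coe_smul,
      P2MW.S_CuspForm_intLattice_fg.W3WsD.qCoeff_zsmul]

theorem cz_spec (k : ℕ) (f : Lat p) :
    ((cz p k f : ℤ) : ℂ) = qCoeff ⇑(f : CuspForm (Gamma0 p) 2) k :=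
  czFun_spec p f k

theorem cz_zero_idx (f : Lat p) : cz p 0 f = 0 := by
  apply Int.cast_injective (α := ℂ)
  rw [cz_spec, glue_qCoeff_zero_idx, Int.cast_zero]

/-- An element of the lattice with vanishing coefficients `a_k`, `k ≥ 1`, is zero. -/
theorem eq_zero_of_cz (f : Lat p) (h : ∀ k, 1 ≤ k → cz p k f = 0) : f = 0 := by
  apply Subtype.ext
  apply glue_eq_zero_of_qCoeff
  intro n
  rcases Nat.eq_zero_or_pos n with rfl | hn
  · exact glue_qCoeff_zero_idx _
  · rw [← cz_spec, h n hn, Int.cast_zero]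

/-- **Saturation** of the lattice. -/
theorem exists_eq_smul_of_dvd (f : Lat p) (n : ℤ) (hn : n ≠ 0)
    (h : ∀ k, 1 ≤ k → n ∣ cz p k f) : ∃ g : Lat p, f = n • g := by
  have hnC : (n : ℂ) ≠ 0 := Int.cast_ne_zero.mpr hn
  set g₀ : CuspForm (Gamma0 p) 2 := ((n : ℂ)⁻¹) • (f : CuspForm (Gamma0 p) 2) with hg₀
  have hg₀mem : g₀ ∈ CuspForm.intLattice p 2 := by
    rw [mem_intLattice_iff']
    intro k
    rcases Nat.eq_zero_or_pos k with rfl | hk
    · exact ⟨0, by rw [glue_qCoeff_zero_idx]; simp⟩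
    · obtain ⟨c, hc⟩ := h k hk
      refine ⟨c, ?_⟩
      rw [hg₀, glue_qCoeff_smul, ← cz_spec, hc]
      push_cast
      field_simp
  refine ⟨⟨g₀, hg₀mem⟩, Subtype.ext ?_⟩
  rw [Submodule.coe_smul]
  show (f : CuspForm (Gamma0 p) 2) = n • g₀
  rw [hg₀, ← Int.cast_smul_eq_zsmul ℂ n, smul_smul, mul_inv_cancel₀ hnC, one_smul]

/-! ## The Hecke algebra acting on the lattice -/

/-- `ℤ[X_ℓ] → 𝕋`. -/
def phiL : HeckeAlg →+* TT p :=
  (CuspForm.latticeRestrictHom p ∅).toRingHom.comp (CuspForm.heckeEvalForms p 2)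

/-- The action of `𝕋` on `L`. -/
def act (t : TT p) (f : Lat p) : Lat p := (t : Module.End ℤ (Lat p)) f

theorem coe_act_phiL (P : HeckeAlg) (f : Lat p) :
    ((act p (phiL p P) f : Lat p) : CuspForm (Gamma0 p) 2) = opOf p P f := rfl

theorem act_add (t : TT p) (f g : Lat p) : act p t (f + g) = act p t f + act p t g :=
  map_add (t : Module.End ℤ (Lat p)) f g

theorem act_zsmul (t : TT p) (c : ℤ) (f : Lat p) : act p t (c • f) = c • act p t f :=
  map_zsmul (t : Module.End ℤ (Lat p)) c f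

theorem act_sub (t : TT p) (f g : Lat p) : act p t (f - g) = act p t f - act p t g :=
  map_sub (t : Module.End ℤ (Lat p)) f g

theorem act_zero (t : TT p) : act p t 0 = 0 :=
  map_zero (t : Module.End ℤ (Lat p))

theorem add_act (s t : TT p) (f : Lat p) : act p (s + t) f = act p s f + act p t f := rfl

theorem sub_act (s t : TT p) (f : Lat p) : act p (s - t) f = act p s f - act p t f := rfl

theorem mul_act (s t : TT p) (f : Lat p) : act p (s * t) f = act p s (act p t f) := rfl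

theorem one_act (f : Lat p) : act p 1 f = f := rfl

theorem zero_act (f : Lat p) : act p 0 f = 0 := rfl

theorem zsmul_act (c : ℤ) (t : TT p) (f : Lat p) : act p (c • t) f = c • act p t f := rfl

theorem intCast_act (c : ℤ) (f : Lat p) : act p (c : TT p) f = c • f := by
  have : (c : TT p) = c • (1 : TT p) := by simp
  rw [this, zsmul_act, one_act]

theorem ext_act {s t : TT p} (h : ∀ f, act p s f = act p t f) : s = t :=
  Subtype.ext (LinearMap.ext h)

/-- `heckeEvalForms` is onto the Hecke algebra of `S₂(Γ₀(p))`. -/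
theorem heckeEvalForms_surjective : Function.Surjective (CuspForm.heckeEvalForms p 2) := by
  rintro ⟨x, hx⟩
  suffices h : ∃ P : HeckeAlg, opOf p P = x by
    obtain ⟨P, hP⟩ := h
    exact ⟨P, Subtype.ext hP⟩
  unfold CuspForm.heckeAlgebra at hx
  induction hx using Algebra.adjoin_induction with
  | mem x hx =>
    rcases hx with ⟨ℓ, hℓ, hℓN, -, rfl⟩ | ⟨q, hqN, hq, -, rfl⟩
    · refine ⟨MvPolynomial.X (pr ℓ hℓ), ?_⟩
      have h : ¬ ((pr ℓ hℓ : Nat.Primes) : ℕ) ∣ p := hℓN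
      have := heckeEvalForms_heckeGen_of_not_dvd (N := p) (k := 2) (ℓ := pr ℓ hℓ) h
      simp only [opOf]
      rw [show (MvPolynomial.X (pr ℓ hℓ) : HeckeAlg) = heckeGen (pr ℓ hℓ) from rfl, this]
      rfl
    · refine ⟨MvPolynomial.X (pr q hq), ?_⟩
      have h : ((pr q hq : Nat.Primes) : ℕ) ∣ p := hqN
      have := heckeEvalForms_heckeGen_of_dvd (N := p) (k := 2) (q := pr q hq) h
      simp only [opOf]
      rw [show (MvPolynomial.X (pr q hq) : HeckeAlg) = heckeGen (pr q hq) from rfl, this]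
      rfl
  | algebraMap r => exact ⟨MvPolynomial.C r, opOf_C p r⟩
  | add x y _ _ ihx ihy =>
    obtain ⟨P, rfl⟩ := ihx
    obtain ⟨Q, rfl⟩ := ihy
    exact ⟨P + Q, opOf_add p P Q⟩
  | mul x y _ _ ihx ihy =>
    obtain ⟨P, rfl⟩ := ihx
    obtain ⟨Q, rfl⟩ := ihy
    exact ⟨P * Q, opOf_mul p P Q⟩

theorem phiL_surjective : Function.Surjective (phiL p) := by
  intro t
  obtain ⟨s, hs⟩ := CuspForm.latticeRestrictHom_surjective p ∅ t
  obtain ⟨P, hP⟩ := heckeEvalForms_surjective p s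
  exact ⟨P, by rw [← hs, ← hP]; rfl⟩

/-- Coefficients of `phiL P • f`. -/
theorem cz_act_phiL (P : HeckeAlg) (f : Lat p) (k : ℕ) :
    ((cz p k (act p (phiL p P) f) : ℤ) : ℂ) =
      qCoeff ⇑(opOf p P (f : CuspForm (Gamma0 p) 2)) k := by
  rw [cz_spec, coe_act_phiL]

/-! ## The operators `t_k` -/

/-- The polynomial `P_k`. -/
def polyK (k : ℕ) : HeckeAlg :=
  if hk : 1 ≤ k then (exists_poly p k hk).choose else 0

theorem evEis_polyK {k : ℕ} (hk : 1 ≤ k) : evEis p (polyK p k) = (sigmaP p k : ℤ) := by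
  rw [polyK, dif_pos hk]
  exact (exists_poly p k hk).choose_spec.1

/-- `a₁(t_k f) = a_k(f)`. -/
theorem cz_one_act_polyK {k : ℕ} (hk : 1 ≤ k) (f : Lat p) :
    cz p 1 (act p (phiL p (polyK p k)) f) = cz p k f := by
  apply Int.cast_injective (α := ℂ)
  rw [cz_act_phiL, cz_spec, polyK, dif_pos hk]
  exact (exists_poly p k hk).choose_spec.2 _

end Fermat.Agent.S16.H68
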