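import Fermat.Agent.S16.H68.Lattice

/-!
# S16 / WP ALG (helper68): the perfect pairing `𝕋 × L → ℤ`, `(t, f) ↦ a₁(t f)`

Main result: `exists_lat_of_functional` — every linear form on `𝕋` is `t ↦ a₁(t f)` for some
`f ∈ L`.
-/

set_option autoImplicit false
set_option linter.unusedSectionVars false

noncomputable section

namespace Fermat.Agent.S16.H68

open CuspForm CongruenceSubgroup ModularFormClass ModularCurve Module
open Fermat.Agent.S16 Fermat.Agent.S49

variable (p : ℕ) [Fact p.Prime]

/-- The pairing `L × 𝕋 → ℤ`, `(f, t) ↦ a₁(t f)`. -/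
def pairing : Lat p →ₗ[ℤ] TT p →ₗ[ℤ] ℤ :=
  LinearMap.mk₂ ℤ (fun f t => cz p 1 (act p t f))
    (fun f g t => by rw [act_add, map_add])
    (fun c f t => by rw [act_zsmul, map_smul])
    (fun f s t => by rw [add_act, map_add])
    (fun c f t => by rw [zsmul_act, map_smul])

theorem pairing_apply (f : Lat p) (t : TT p) : pairing p f t = cz p 1 (act p t f) := rfl

/-- `a_k(f) = ⟨f, t_k⟩`. -/
theorem pairing_polyK {k : ℕ} (hk : 1 ≤ k) (f : Lat p) :
    pairing p f (phiL p (polyK p k)) = cz p k f := by
  rw [pairing_apply, cz_one_act_polyK p hk]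

theorem pairing_injective : Function.Injective (pairing p) := by
  rw [injective_iff_map_eq_zero]
  intro f hf
  apply eq_zero_of_cz
  intro k hk
  rw [← pairing_polyK p hk, hf, LinearMap.zero_apply]

theorem pairing_flip_injective : Function.Injective (pairing p).flip := by
  rw [injective_iff_map_eq_zero]
  intro t ht
  apply ext_act
  intro f
  rw [zero_act]
  apply eq_zero_of_cz
  intro k hk
  have h1 : cz p k (act p t f) = pairing p (act p (phiL p (polyK p k)) f) t := by
    rw [pairing_apply, ← mul_act, mul_comm, mul_act, cz_one_act_polyK p hk]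
  rw [h1, ← LinearMap.flip_apply, ht, LinearMap.zero_apply]

theorem finrank_lat_eq : finrank ℤ (Lat p) = finrank ℤ (TT p) := by
  have := CuspForm.intLattice.moduleFinite p
  have := CuspForm.intLattice.moduleFree p
  apply le_antisymm
  · have h := LinearMap.finrank_le_finrank_of_injective (pairing_injective p)
    rwa [Module.finrank_linearMap_self] at h
  · have h := LinearMap.finrank_le_finrank_of_injective (pairing_flip_injective p)
    rwa [Module.finrank_linearMap_self] at h

/-- The cokernel of the pairing map is torsion. -/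
theorem exists_smul_mem_range (lam : TT p →ₗ[ℤ] ℤ) :
    ∃ a : ℤ, a ≠ 0 ∧ ∃ f : Lat p, pairing p f = a • lam := by
  have := CuspForm.intLattice.moduleFinite p
  have := CuspForm.intLattice.moduleFree p
  have h1 := (LinearMap.range (pairing p)).finrank_quotient_add_finrank
  rw [LinearMap.finrank_range_of_inj (pairing_injective p), Module.finrank_linearMap_self,
    finrank_lat_eq p] at h1
  have h2 : finrank ℤ ((TT p →ₗ[ℤ] ℤ) ⧸ LinearMap.range (pairing p)) = 0 := by omega
  obtain ⟨a, ha, hax⟩ := Module.finrank_eq_zero_iff.mp h2 (Submodule.Quotient.mk lam)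
  refine ⟨a, ha, ?_⟩
  rw [← Submodule.Quotient.mk_smul, Submodule.Quotient.mk_eq_zero] at hax
  obtain ⟨f, hf⟩ := hax
  exact ⟨f, hf⟩

/-- **Perfectness of the pairing**: every linear form on `𝕋` comes from the lattice. -/
theorem exists_lat_of_functional (lam : TT p →ₗ[ℤ] ℤ) :
    ∃ f : Lat p, ∀ t : TT p, cz p 1 (act p t f) = lam t := by
  obtain ⟨a, ha, f, hf⟩ := exists_smul_mem_range p lam
  have hdiv : ∀ k, 1 ≤ k → a ∣ cz p k f := by
    intro k hk
    rw [← pairing_polyK p hk, hf]
    exact ⟨lam (phiL p (polyK p k)), by simp⟩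
  obtain ⟨g, hg⟩ := exists_eq_smul_of_dvd p f a ha hdiv
  refine ⟨g, fun t => ?_⟩
  have h1 : a * cz p 1 (act p t g) = a * lam t := by
    have := congrArg (fun φ : TT p →ₗ[ℤ] ℤ => φ t) hf
    simp only [pairing_apply, LinearMap.smul_apply, smul_eq_mul] at this
    rw [← this, hg, act_zsmul, map_smul, smul_eq_mul]
  exact mul_left_cancel₀ ha h1

end Fermat.Agent.S16.H68
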