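import Fermat.Agent.S16.Defs

/-!
# S16 / WP ALG (helper68): the Hecke recursion of `sigmaP`

`sigmaP p k` = sum of the divisors of `k` prime to `p`.  For a prime `ℓ ≠ p`:
`σ'(kℓ) + [ℓ ∣ k] ℓ σ'(k/ℓ) = (1 + ℓ) σ'(k)`, and `σ'(kp) = σ'(k)`.
-/

set_option autoImplicit false

namespace Fermat.Agent.S16.H68

open Fermat.Agent.S16

theorem sigmaP_one (p : ℕ) (hp : p.Prime) : sigmaP p 1 = 1 := by
  have h : ¬ p ∣ 1 := hp.one_lt.ne' ∘ Nat.dvd_one.mp
  simp [sigmaP, Finset.filter_singleton, h]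

theorem sigmaP_mul_self (p : ℕ) (hp : p.Prime) (k : ℕ) (hk : k ≠ 0) :
    sigmaP p (k * p) = sigmaP p k := by
  unfold sigmaP
  congr 1
  ext d
  simp only [Finset.mem_filter, Nat.mem_divisors]
  constructor
  · rintro ⟨⟨hd, -⟩, hpd⟩
    refine ⟨⟨?_, hk⟩, hpd⟩
    have hcop : Nat.Coprime d p := ((Nat.Prime.coprime_iff_not_dvd hp).mpr hpd).symm
    exact hcop.dvd_of_dvd_mul_right hd
  · rintro ⟨⟨hd, -⟩, hpd⟩
    exact ⟨⟨hd.mul_right p, mul_ne_zero hk hp.ne_zero⟩, hpd⟩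

theorem sigmaP_mul_prime (p : ℕ) (hp : p.Prime) (ℓ : ℕ) (hℓ : ℓ.Prime) (hℓp : ℓ ≠ p)
    (k : ℕ) (hk : k ≠ 0) :
    sigmaP p (k * ℓ) + (if ℓ ∣ k then ℓ * sigmaP p (k / ℓ) else 0) = (1 + ℓ) * sigmaP p k := by
  classical
  -- notation
  set A : Finset ℕ := k.divisors.filter (fun d => ¬ p ∣ d) with hA
  set B : Finset ℕ := A.image (fun d => d * ℓ) with hB
  have hinj : Function.Injective (fun d : ℕ => d * ℓ) :=
    fun a b h => Nat.eq_of_mul_eq_mul_right hℓ.pos h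
  have hpℓ : ∀ d : ℕ, p ∣ d * ℓ ↔ p ∣ d := by
    intro d
    constructor
    · intro h
      rcases (Nat.Prime.dvd_mul hp).mp h with h | h
      · exact h
      · exact absurd ((Nat.prime_dvd_prime_iff_eq hp hℓ).mp h).symm hℓp
    · exact fun h => h.mul_right ℓ
  -- the divisors of `k ℓ` prime to `p`
  have hunion : (k * ℓ).divisors.filter (fun d => ¬ p ∣ d) = A ∪ B := by
    ext d
    simp only [hA, hB, Finset.mem_filter, Nat.mem_divisors, Finset.mem_union, Finset.mem_image]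
    constructor
    · rintro ⟨⟨hd, -⟩, hpd⟩
      by_cases hℓd : ℓ ∣ d
      · obtain ⟨d', rfl⟩ := hℓd
        right
        refine ⟨d', ⟨⟨?_, hk⟩, ?_⟩, by ring⟩
        · have : ℓ * d' ∣ ℓ * k := by rwa [mul_comm ℓ k]
          exact (Nat.mul_dvd_mul_iff_left hℓ.pos).mp this
        · intro h
          exact hpd (h.mul_left ℓ)
      · left
        have hcop : Nat.Coprime d ℓ := ((Nat.Prime.coprime_iff_not_dvd hℓ).mpr hℓd).symm
        exact ⟨⟨hcop.dvd_of_dvd_mul_right hd, hk⟩, hpd⟩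
    · rintro (⟨⟨hd, -⟩, hpd⟩ | ⟨d', ⟨⟨hd', -⟩, hpd'⟩, rfl⟩)
      · exact ⟨⟨hd.mul_right ℓ, mul_ne_zero hk hℓ.ne_zero⟩, hpd⟩
      · exact ⟨⟨Nat.mul_dvd_mul_right hd' ℓ, mul_ne_zero hk hℓ.ne_zero⟩,
          fun h => hpd' ((hpℓ d').mp h)⟩
  have hsumB : ∑ d ∈ B, d = ℓ * sigmaP p k := by
    rw [hB, Finset.sum_image (fun a _ b _ h => hinj h), sigmaP, Finset.mul_sum]
    exact Finset.sum_congr rfl fun d _ => mul_comm d ℓ
  have hinter : ∑ d ∈ A ∩ B, d = if ℓ ∣ k then ℓ * sigmaP p (k / ℓ) else 0 := by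
    split_ifs with hℓk
    · have hAB : A ∩ B = ((k / ℓ).divisors.filter (fun d => ¬ p ∣ d)).image (fun d => d * ℓ) := by
        ext d
        simp only [hA, hB, Finset.mem_inter, Finset.mem_filter, Nat.mem_divisors,
          Finset.mem_image]
        constructor
        · rintro ⟨⟨⟨hd, -⟩, hpd⟩, d', ⟨⟨hd', -⟩, hpd'⟩, rfl⟩
          refine ⟨d', ⟨⟨?_, ?_⟩, hpd'⟩, rfl⟩
          · exact (Nat.dvd_div_iff_mul_dvd hℓk).mpr (by rwa [mul_comm])
          · exact (Nat.div_pos (Nat.le_of_dvd (Nat.pos_of_ne_zero hk) hℓk) hℓ.pos).ne'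
        · rintro ⟨d', ⟨⟨hd', -⟩, hpd'⟩, rfl⟩
          have h1 : d' * ℓ ∣ k := by
            have := (Nat.dvd_div_iff_mul_dvd hℓk).mp hd'
            rwa [mul_comm] at this
          exact ⟨⟨⟨h1, hk⟩, fun h => hpd' ((hpℓ d').mp h)⟩,
            d', ⟨⟨(Nat.dvd_mul_right d' ℓ).trans h1, hk⟩, hpd'⟩, rfl⟩
      rw [hAB, Finset.sum_image (fun a _ b _ h => hinj h), sigmaP, Finset.mul_sum]
      exact Finset.sum_congr rfl fun d _ => mul_comm d ℓ
    · have hAB : A ∩ B = ∅ := by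
        ext d
        simp only [hA, hB, Finset.mem_inter, Finset.mem_filter, Nat.mem_divisors,
          Finset.mem_image, Finset.notMem_empty, iff_false]
        rintro ⟨⟨⟨hd, -⟩, -⟩, d', -, rfl⟩
        exact hℓk ((Nat.dvd_mul_left ℓ d').trans hd)
      rw [hAB, Finset.sum_empty]
  have key := Finset.sum_union_inter (s₁ := A) (s₂ := B) (f := fun d : ℕ => d)
  have hsumA : ∑ d ∈ A, d = sigmaP p k := rfl
  have hsumAB : ∑ d ∈ A ∪ B, d = sigmaP p (k * ℓ) := by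
    rw [← hunion]; rfl
  rw [hsumAB, hinter, hsumA, hsumB] at key
  rw [key]; ring

end Fermat.Agent.S16.H68
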