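import Fermat.Prelude.Def_CuspForm_HeckeLocal
import Fermat.Prelude.Def_CuspForm_HeckeEvalForms
import Fermat.Prelude.Def_HeckeGalois_EichlerShimura
import Fermat.Prelude.Def_ModularCurve_ModularUnit
import Fermat.Agent.S49.Glue
import Fermat.Agent.S16.H68.Sigma

/-!
# S16 / WP ALG (helper68): the operators `t_k`

For every `k ≥ 1` there is a polynomial `P_k` in the abstract Hecke algebra `ℤ[X_ℓ]` with
`ev_Eis (P_k) = σ'(k)` and `a₁(P_k(T) g) = a_k(g)` for every cusp form `g ∈ S₂(Γ₀(p))`.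
-/

set_option autoImplicit false

noncomputable section

namespace Fermat.Agent.S16.H68

open CuspForm CongruenceSubgroup ModularFormClass ModularCurve
open Fermat.Agent.S16 Fermat.Agent.S49

variable (p : ℕ) [Fact p.Prime]

/-- A prime as an element of `Nat.Primes` (type-correct at reducible transparency). -/
def pr (ℓ : ℕ) (hℓ : ℓ.Prime) : Nat.Primes := ⟨ℓ, hℓ⟩

omit [Fact p.Prime] in
@[simp] theorem coe_pr (ℓ : ℕ) (hℓ : ℓ.Prime) : ((pr ℓ hℓ : Nat.Primes) : ℕ) = ℓ := rfl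

/-- The evaluation of the abstract Hecke algebra at the Eisenstein system. -/
def evEis : HeckeAlg →ₐ[ℤ] ℤ := MvPolynomial.aeval (eisensteinSystem p)

omit [Fact p.Prime] in
theorem eisensteinIdeal_eq_ker : eisensteinIdeal p = RingHom.ker (evEis p) := rfl

omit [Fact p.Prime] in
theorem evEis_X (ℓ : Nat.Primes) :
    evEis p (MvPolynomial.X ℓ : HeckeAlg) = eisensteinSystem p ℓ :=
  MvPolynomial.aeval_X _ ℓ

omit [Fact p.Prime] in
theorem evEis_C (a : ℤ) : evEis p (MvPolynomial.C a : HeckeAlg) = a := by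
  simp [evEis]

omit [Fact p.Prime] in
theorem sub_C_evEis_mem (P : HeckeAlg) : P - MvPolynomial.C (evEis p P) ∈ eisensteinIdeal p := by
  rw [eisensteinIdeal_eq_ker, RingHom.mem_ker, map_sub, evEis_C, sub_self]

/-- The Hecke operator attached to a polynomial, as an endomorphism of `S₂(Γ₀(p))`. -/
def opOf (P : HeckeAlg) : Module.End ℂ (CuspForm (Gamma0 p) 2) :=
  ((heckeEvalForms p 2 P : heckeAlgebra p 2 ∅) : Module.End ℂ (CuspForm (Gamma0 p) 2))

theorem opOf_mul (P Q : HeckeAlg) : opOf p (P * Q) = opOf p P * opOf p Q := by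
  simp [opOf]

theorem opOf_add (P Q : HeckeAlg) : opOf p (P + Q) = opOf p P + opOf p Q := by
  simp [opOf]

theorem opOf_sub (P Q : HeckeAlg) : opOf p (P - Q) = opOf p P - opOf p Q := by
  simp [opOf]

theorem opOf_one : opOf p 1 = 1 := by
  simp [opOf]

theorem opOf_C (a : ℤ) : opOf p (MvPolynomial.C a) = algebraMap ℤ _ a := by
  simp [opOf]

theorem prime_not_dvd {ℓ : ℕ} (hℓ : ℓ.Prime) (hℓp : ℓ ≠ p) : ¬ ℓ ∣ p := fun h =>
  hℓp ((Nat.prime_dvd_prime_iff_eq hℓ (Fact.out : p.Prime)).mp h)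

theorem opOf_X_of_ne {ℓ : ℕ} (hℓ : ℓ.Prime) (hℓp : ℓ ≠ p) :
    opOf p (MvPolynomial.X (pr ℓ hℓ)) = CuspForm.heckeTLin 2 hℓ (prime_not_dvd p hℓ hℓp) := by
  have h : ¬ ((pr ℓ hℓ : Nat.Primes) : ℕ) ∣ p := prime_not_dvd p hℓ hℓp
  have := heckeEvalForms_heckeGen_of_not_dvd (N := p) (k := 2) (ℓ := pr ℓ hℓ) h
  simp only [opOf]
  rw [show (MvPolynomial.X (pr ℓ hℓ) : HeckeAlg) = heckeGen (pr ℓ hℓ) from rfl, this]
  rfl

theorem opOf_X_self :
    opOf p (MvPolynomial.X (pr p Fact.out)) = CuspForm.heckeULin 2 (dvd_refl p) := by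
  have h : ((pr p Fact.out : Nat.Primes) : ℕ) ∣ p := dvd_refl p
  have := heckeEvalForms_heckeGen_of_dvd (N := p) (k := 2) (q := pr p Fact.out) h
  simp only [opOf]
  rw [show (MvPolynomial.X (pr p Fact.out) : HeckeAlg) = heckeGen (pr p Fact.out)
    from rfl, this]
  rfl

/-- `q`-coefficients of `T_ℓ g`, `ℓ ≠ p`. -/
theorem qCoeff_opOf_X_of_ne {ℓ : ℕ} (hℓ : ℓ.Prime) (hℓp : ℓ ≠ p)
    (g : CuspForm (Gamma0 p) 2) (n : ℕ) :
    qCoeff ⇑(opOf p (MvPolynomial.X (pr ℓ hℓ)) g) n =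
      qCoeff ⇑g (n * ℓ) + if ℓ ∣ n then (ℓ : ℂ) * qCoeff ⇑g (n / ℓ) else 0 := by
  rw [opOf_X_of_ne p hℓ hℓp]
  exact glue_qCoeff_heckeTLin hℓ _ g n

/-- `q`-coefficients of `U_p g`. -/
theorem qCoeff_opOf_X_self (g : CuspForm (Gamma0 p) 2) (n : ℕ) :
    qCoeff ⇑(opOf p (MvPolynomial.X (pr p Fact.out)) g) n = qCoeff ⇑g (n * p) := by
  rw [opOf_X_self p]
  exact glue_qCoeff_heckeULin (Fact.out : p.Prime) _ g n

theorem qCoeff_opOf_C (a : ℤ) (g : CuspForm (Gamma0 p) 2) (n : ℕ) :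
    qCoeff ⇑(opOf p (MvPolynomial.C a) g) n = (a : ℂ) * qCoeff ⇑g n := by
  rw [opOf_C]
  have : (algebraMap ℤ (Module.End ℂ (CuspForm (Gamma0 p) 2)) a) g = (a : ℂ) • g := by
    rw [Algebra.algebraMap_eq_smul_one, LinearMap.smul_apply, Module.End.one_apply]
    exact (Int.cast_smul_eq_zsmul ℂ a g).symm
  rw [this, glue_qCoeff_smul]

/-- **The operators `t_k`.** -/
theorem exists_poly (k : ℕ) (hk : 1 ≤ k) :
    ∃ P : HeckeAlg, evEis p P = (sigmaP p k : ℤ) ∧
      ∀ g : CuspForm (Gamma0 p) 2, qCoeff ⇑(opOf p P g) 1 = qCoeff ⇑g k := by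
  have hp : p.Prime := Fact.out
  induction k using Nat.strong_induction_on with
  | _ k ih =>
    rcases Nat.eq_or_lt_of_le hk with h1 | h1
    · subst h1
      refine ⟨1, ?_, fun g => ?_⟩
      · rw [map_one, sigmaP_one p hp]; rfl
      · rw [opOf_one]; rfl
    · -- `k = k' * ℓ`, `ℓ` the smallest prime factor
      have hℓ : (Nat.minFac k).Prime := Nat.minFac_prime (by omega)
      set ℓ := Nat.minFac k with hℓdef
      obtain ⟨k', hk'⟩ : ∃ k', k = k' * ℓ := by
        obtain ⟨c, hc⟩ := Nat.minFac_dvd k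
        exact ⟨c, by rw [hc]; ring⟩
      have hk'pos : 1 ≤ k' := by
        rcases Nat.eq_zero_or_pos k' with h0 | h0
        · rw [h0, zero_mul] at hk'; omega
        · exact h0
      have hk'lt : k' < k := by
        rw [hk']
        have := hℓ.one_lt
        nlinarith
      obtain ⟨P', hP'ev, hP'⟩ := ih k' hk'lt hk'pos
      by_cases hℓp : ℓ = p
      · -- `ℓ = p` : `t_k = t_{k'} U_p`
        refine ⟨P' * MvPolynomial.X (pr p Fact.out), ?_, fun g => ?_⟩
        · rw [map_mul, hP'ev, evEis_X, eisensteinSystem_of_dvd (N := p) (ℓ := pr p Fact.out) (dvd_refl p), mul_one, hk', hℓp,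
            sigmaP_mul_self p hp k' (by omega)]
        · rw [opOf_mul, Module.End.mul_apply, hP', qCoeff_opOf_X_self, hk', hℓp]
      · -- `ℓ ≠ p`
        have hsig := sigmaP_mul_prime p hp ℓ hℓ hℓp k' (by omega)
        have hnd : ¬ ((pr ℓ hℓ : Nat.Primes) : ℕ) ∣ p := prime_not_dvd p hℓ hℓp
        by_cases hdiv : ℓ ∣ k'
        · obtain ⟨k'', hk''⟩ : ∃ k'', k' = k'' * ℓ := by
            obtain ⟨c, hc⟩ := hdiv
            exact ⟨c, by rw [hc]; ring⟩
          have hk''pos : 1 ≤ k'' := by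
            rcases Nat.eq_zero_or_pos k'' with h0 | h0
            · rw [h0, zero_mul] at hk''; omega
            · exact h0
          have hk''lt : k'' < k := by
            have := hℓ.one_lt
            have : k'' < k' := by rw [hk'']; nlinarith
            omega
          have hdivk : k' / ℓ = k'' := by
            rw [hk'']; exact Nat.mul_div_cancel _ hℓ.pos
          obtain ⟨P'', hP''ev, hP''⟩ := ih k'' hk''lt hk''pos
          refine ⟨P' * MvPolynomial.X (pr ℓ hℓ) - MvPolynomial.C (ℓ : ℤ) * P'', ?_, fun g => ?_⟩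
          · rw [map_sub, map_mul, map_mul, hP'ev, hP''ev, evEis_X, evEis_C,
              eisensteinSystem_of_not_dvd hnd]
            rw [if_pos hdiv, hdivk] at hsig
            have hsigZ : (sigmaP p (k' * ℓ) : ℤ) + (ℓ : ℤ) * (sigmaP p k'' : ℤ) =
                (1 + (ℓ : ℤ)) * (sigmaP p k' : ℤ) := by exact_mod_cast hsig
            rw [hk', coe_pr]
            linear_combination -hsigZ
          · rw [opOf_sub, LinearMap.sub_apply, glue_qCoeff_sub, opOf_mul, opOf_mul,
              Module.End.mul_apply, Module.End.mul_apply, hP', qCoeff_opOf_C, hP'',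
              qCoeff_opOf_X_of_ne p hℓ hℓp, if_pos hdiv, hdivk, hk']
            push_cast
            ring
        · refine ⟨P' * MvPolynomial.X (pr ℓ hℓ), ?_, fun g => ?_⟩
          · rw [map_mul, hP'ev, evEis_X, eisensteinSystem_of_not_dvd hnd]
            rw [if_neg hdiv, add_zero] at hsig
            rw [hk', hsig, coe_pr]
            push_cast
            ring
          · rw [opOf_mul, Module.End.mul_apply, hP', qCoeff_opOf_X_of_ne p hℓ hℓp,
              if_neg hdiv, add_zero, hk']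

end Fermat.Agent.S16.H68
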